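/-
Fermat/Agent/Jac/CurveHyp80/Algebra.lean  (helper80)

JAC programme, brick Q3c-CurveHyp (instance of `AbelJacobi73.CurveHyp` for the curve chart):
the pure commutative algebra.  `k` a field, `R` a `k`-algebra, `t : R`, and `R` is a finite free
module over `k[X]` with `X` acting as `t` (`Module.AEval k R t`).  Then

* `aeval_injective` : `t` is transcendental over `k` (`R` nontrivial);
* `not_isField` : `R` is not a field;
* `finiteType` : `R` is a `k`-algebra of finite type;
* `quotient_surjective` : for `k` algebraically closed, every maximal ideal of a `k`-algebra of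
  finite type has residue field `k`.
-/
import Mathlib

set_option autoImplicit false
set_option linter.unusedSectionVars false
set_option linter.style.haveILetI false

universe u

open Polynomial

namespace Fermat.Agent.Jac.CurveHyp80

variable {k : Type*} [Field k] {R : Type*} [CommRing R] [Algebra k R] (t : R)

/-- A free `k[X]`-module is torsion-free: `p • m = 0` with `m ≠ 0` forces `p = 0`. -/
lemma eq_zero_of_smul_eq_zero [Module.Free k[X] (Module.AEval k R t)]
    {p : k[X]} {m : Module.AEval k R t} (hm : m ≠ 0) (h : p • m = 0) : p = 0 := by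
  exact (smul_eq_zero_iff_left hm).1 h

lemma of_one_ne_zero [Nontrivial R] : (Module.AEval.of k R t) (1 : R) ≠ 0 := by
  intro h
  have : (1 : R) = 0 := (Module.AEval.of k R t).injective (by rw [h, map_zero])
  exact one_ne_zero this

/-- `t` is transcendental: `k[X] → R`, `X ↦ t`, is injective. -/
theorem aeval_injective [Nontrivial R] [Module.Free k[X] (Module.AEval k R t)] :
    Function.Injective (Polynomial.aeval (R := k) t) := by
  rw [injective_iff_map_eq_zero]
  intro p hp
  apply eq_zero_of_smul_eq_zero t (of_one_ne_zero (k := k) t)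
  rw [← Module.AEval.of_aeval_smul, hp, zero_smul, map_zero]

theorem t_ne_zero [Nontrivial R] [Module.Free k[X] (Module.AEval k R t)] : t ≠ 0 := by
  intro h
  have h1 : Polynomial.aeval (R := k) t X = Polynomial.aeval (R := k) t 0 := by
    rw [aeval_X, map_zero, h]
  exact X_ne_zero (aeval_injective t h1)

/-- A `k`-algebra which is a nonzero finite free `k[t]`-module is not a field. -/
theorem not_isField [Nontrivial R] [Module.Free k[X] (Module.AEval k R t)]
    [Module.Finite k[X] (Module.AEval k R t)] : ¬ IsField R := by
  intro hF
  have ht0 : t ≠ 0 := t_ne_zero (k := k) t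
  obtain ⟨u, hu⟩ := hF.mul_inv_cancel ht0
  -- `X • M = M`
  have htop : (⊤ : Submodule k[X] (Module.AEval k R t)) ≤
      (Ideal.span {(X : k[X])}) • (⊤ : Submodule k[X] (Module.AEval k R t)) := by
    intro m _
    have hm : m = (X : k[X]) • (Module.AEval.of k R t) (u * (Module.AEval.of k R t).symm m) := by
      rw [Module.AEval.X_smul_of, smul_eq_mul, ← mul_assoc, hu, one_mul,
        LinearEquiv.apply_symm_apply]
    rw [hm]
    exact Submodule.smul_mem_smul (Ideal.subset_span rfl) Submodule.mem_top
  obtain ⟨r, hr, hr0⟩ := Submodule.exists_sub_one_mem_and_smul_eq_zero_of_fg_of_le_smul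
    (Ideal.span {(X : k[X])}) (⊤ : Submodule k[X] (Module.AEval k R t))
    (Module.Finite.fg_top) htop
  have hr' : r = 0 :=
    eq_zero_of_smul_eq_zero t (of_one_ne_zero (k := k) t) (hr0 _ Submodule.mem_top)
  rw [hr', zero_sub, Ideal.neg_mem_iff, Ideal.mem_span_singleton] at hr
  have h1 := Polynomial.X_dvd_iff.1 hr
  rw [Polynomial.coeff_one_zero] at h1
  exact one_ne_zero h1

/-- The `k[X]`-algebra structure on `R` with `X ↦ t`. -/
@[reducible] noncomputable def polyAlgebra : Algebra k[X] R := (Polynomial.aeval (R := k) t).toRingHom.toAlgebra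

/-- `Module.AEval k R t` is `R` with the module structure of `polyAlgebra t`. -/
noncomputable def aevalEquiv : letI := polyAlgebra (k := k) t
    Module.AEval k R t ≃ₗ[k[X]] R :=
  letI := polyAlgebra (k := k) t
  { (Module.AEval.of k R t).symm with
    map_smul' := fun p m => by
      simp only [AddHom.toFun_eq_coe, LinearMap.coe_toAddHom, LinearEquiv.coe_coe,
        RingHom.id_apply]
      rw [Module.AEval.of_symm_smul]
      rfl }

/-- `R` is of finite type over `k`. -/
theorem finiteType [Module.Finite k[X] (Module.AEval k R t)] : Algebra.FiniteType k R := by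
  letI := polyAlgebra (k := k) t
  haveI : IsScalarTower k k[X] R := IsScalarTower.of_algebraMap_eq fun a => by
    change algebraMap k R a = Polynomial.aeval t (C a)
    rw [aeval_C]
  haveI : Module.Finite k[X] R := Module.Finite.equiv (aevalEquiv (k := k) t)
  haveI : Algebra.FiniteType k[X] R := inferInstance
  exact Algebra.FiniteType.trans (inferInstance : Algebra.FiniteType k k[X]) inferInstance

/-- **Nullstellensatz**: over an algebraically closed field every closed point of a `k`-algebra of
finite type is rational. -/
theorem quotient_surjective [IsAlgClosed k] [Algebra.FiniteType k R] (m : Ideal R)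
    (hm : m.IsMaximal) : Function.Surjective (algebraMap k (R ⧸ m)) := by
  letI := Ideal.Quotient.field m
  haveI : Algebra.FiniteType k (R ⧸ m) :=
    Algebra.FiniteType.of_surjective (Ideal.Quotient.mkₐ k m) (Ideal.Quotient.mkₐ_surjective k m)
  haveI : Module.Finite k (R ⧸ m) := finite_of_finite_type_of_isJacobsonRing k (R ⧸ m)
  haveI : Algebra.IsIntegral k (R ⧸ m) := Algebra.IsIntegral.of_finite k (R ⧸ m)
  exact (IsAlgClosed.algebraMap_bijective_of_isIntegral (k := k) (K := R ⧸ m)).2

end Fermat.Agent.Jac.CurveHyp80
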