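/-
Fermat/Agent/Jac/CurveHyp80/Instance.lean  (helper80)

JAC programme, brick Q3c-CurveHyp: the hypotheses `AbelJacobi73.CurveHyp` hold for the two-chart
ring `cc.chart0` of a curve with charts `cc : CurveCharts c ε` over an algebraically closed field.

* `finiteProjOverLine_chart0 : cc.chart0.FiniteProjOverLine`;
* `isDedekindDomain_B0`, `isDedekindDomain_B1`, `isDomain_B01`;
* `curveHyp : CurveHyp cc.chart0` (for `[IsAlgClosed k]`);
* `isRatPointPair_P0` : the base point `ker cc.P0` (in the chart at infinity) is a rational point.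
-/
import Fermat.Agent.Jac.CurveHyp80.Algebra
import Fermat.Agent.Jac.AbelJacobi73.Riemann
import Fermat.Agent.Jac.AffineDict87.Setup
import Fermat.Agent.Jac.RiemannCover82.Step
import Fermat.Agent.Jac.BridgeCharts33Pack

set_option autoImplicit false
set_option linter.unusedSectionVars false
set_option linter.style.haveILetI false

open CategoryTheory CategoryTheory.Limits AlgebraicGeometry TopologicalSpace Opposite
open NeronModelInfra Polynomial

universe u

noncomputable section

namespace Fermat.Agent.Jac.CurveHyp80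

open Fermat.Agent.Jac Fermat.Agent.Jac.TwoCoverGammaSetting Fermat.Agent.Jac.LineOps39
  Fermat.Agent.Jac.AbelJacobi73

variable {k : Type u} [Field k] {C : Scheme.{u}} {c : C ⟶ Spec (CommRingCat.of k)}
  {ε : SchemeHomOver (𝟙 (Spec (CommRingCat.of k))) c} (cc : CurveCharts c ε)

/-! ### the `k`-algebra structures of the cover are the `sectionsAlgebra`s -/

theorem str0_eq : cc.cover0.str0 = sectionsRingHom c cc.U0 := BridgeCharts33.cover0_str0 cc

theorem str1_eq : cc.cover0.str1 = sectionsRingHom c cc.U1 := BridgeCharts33.cover0_str1 cc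

theorem algA0_eq : (TwoCover.algA0 cc.cover0 : Algebra k cc.B0) = sectionsAlgebra c cc.U0 :=
  congrArg RingHom.toAlgebra (str0_eq cc)

theorem algA1_eq : (TwoCover.algA1 cc.cover0 : Algebra k cc.B1) = sectionsAlgebra c cc.U1 :=
  congrArg RingHom.toAlgebra (str1_eq cc)

lemma finite_aeval_congr {R : Type u} [CommRing R] (i1 i2 : Algebra k R) (h : i1 = i2) (t : R)
    (hf : letI := i1; Module.Finite k[X] (Module.AEval k R t)) :
    letI := i2; Module.Finite k[X] (Module.AEval k R t) := by
  subst h; exact hf

lemma free_aeval_congr {R : Type u} [CommRing R] (i1 i2 : Algebra k R) (h : i1 = i2) (t : R)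
    (hf : letI := i1; Module.Free k[X] (Module.AEval k R t)) :
    letI := i2; Module.Free k[X] (Module.AEval k R t) := by
  subst h; exact hf

theorem finite_B0 : Module.Finite k[X] (Module.AEval k cc.B0 cc.chart0.t) :=
  finite_aeval_congr _ _ (algA0_eq cc).symm cc.t cc.finite0

theorem free_B0 : Module.Free k[X] (Module.AEval k cc.B0 cc.chart0.t) :=
  free_aeval_congr _ _ (algA0_eq cc).symm cc.t cc.free0

theorem finite_B1 : Module.Finite k[X] (Module.AEval k cc.B1 cc.chart0.s) :=
  finite_aeval_congr _ _ (algA1_eq cc).symm cc.s cc.finite1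

theorem free_B1 : Module.Free k[X] (Module.AEval k cc.B1 cc.chart0.s) :=
  free_aeval_congr _ _ (algA1_eq cc).symm cc.s cc.free1

/-- The charts of the curve are finite projective over the line. -/
theorem finiteProjOverLine_chart0 : cc.chart0.FiniteProjOverLine where
  fin0 := finite_B0 cc
  proj0 := haveI := free_B0 cc; inferInstance
  fin1 := finite_B1 cc
  proj1 := haveI := free_B1 cc; inferInstance

theorem isDedekindDomain_B0 : IsDedekindDomain cc.B0 := cc.dedekind0

theorem isDedekindDomain_B1 : IsDedekindDomain cc.B1 := cc.dedekind1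

theorem t_ne_zero_chart0 : cc.chart0.t ≠ 0 := by
  haveI := isDedekindDomain_B0 cc
  haveI := free_B0 cc
  exact t_ne_zero (k := k) cc.chart0.t

theorem s_ne_zero_chart0 : cc.chart0.s ≠ 0 := by
  haveI := isDedekindDomain_B1 cc
  haveI := free_B1 cc
  exact t_ne_zero (k := k) cc.chart0.s

theorem isDomain_B01 : IsDomain cc.B01 := by
  haveI := isDedekindDomain_B0 cc
  haveI := cc.chart0.away0
  exact IsLocalization.isDomain_of_le_nonZeroDivisors (R := cc.B0)
    (M := Submonoid.powers cc.chart0.t) cc.B01
    (powers_le_nonZeroDivisors_of_noZeroDivisors (t_ne_zero_chart0 cc))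

theorem finiteType_B0 : Algebra.FiniteType k cc.B0 :=
  haveI := finite_B0 cc
  finiteType (k := k) cc.chart0.t

theorem finiteType_B1 : Algebra.FiniteType k cc.B1 :=
  haveI := finite_B1 cc
  finiteType (k := k) cc.chart0.s

theorem not_isField_B0 : ¬ IsField cc.B0 := by
  haveI := isDedekindDomain_B0 cc
  haveI := free_B0 cc
  haveI := finite_B0 cc
  exact not_isField (k := k) cc.chart0.t

theorem not_isField_B1 : ¬ IsField cc.B1 := by
  haveI := isDedekindDomain_B1 cc
  haveI := free_B1 cc
  haveI := finite_B1 cc
  exact not_isField (k := k) cc.chart0.s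

/-- **The hypotheses of the algebraic Abel-Jacobi surjectivity hold for the charts of a curve over
an algebraically closed field.** -/
theorem curveHyp [IsAlgClosed k] : CurveHyp cc.chart0 where
  notField0 := not_isField_B0 cc
  notField1 := not_isField_B1 cc
  rat0 := fun m hm => haveI := finiteType_B0 cc; quotient_surjective m hm
  rat1 := fun m hm => haveI := finiteType_B1 cc; quotient_surjective m hm
  finCoh := fun _ hL =>
    ⟨RiemannCover82.Step.finiteDimensional_H0 cc.chart0 (finiteProjOverLine_chart0 cc) hL,
      RiemannCover82.Step.finiteDimensional_H1 cc.chart0 (finiteProjOverLine_chart0 cc) hL⟩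

/-! ### the base point -/

theorem P0_surjective : Function.Surjective cc.P0 := fun a =>
  ⟨algebraMap k cc.B1 a, cc.P0.commutes a⟩

theorem ker_P0_isMaximal : (RingHom.ker cc.P0).IsMaximal :=
  RingHom.ker_isMaximal_of_surjective cc.P0 (P0_surjective cc)

theorem quotient_ker_P0_surjective :
    Function.Surjective (algebraMap k (cc.B1 ⧸ RingHom.ker cc.P0)) := by
  intro x
  obtain ⟨b, rfl⟩ := Ideal.Quotient.mk_surjective x
  refine ⟨cc.P0 b, ?_⟩
  change Ideal.Quotient.mk _ (algebraMap k cc.B1 (cc.P0 b)) = Ideal.Quotient.mk _ b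
  rw [Ideal.Quotient.eq, RingHom.mem_ker, map_sub, cc.P0.commutes]
  exact sub_self _

/-- The base point, as an ideal pair of the two-chart ring. -/
def P0pair : IdealPair cc.B0 cc.B1 cc.B01 := IdealPair.ofChart1 cc.chart0 (RingHom.ker cc.P0)

/-- The base point is a rational point. -/
theorem isRatPointPair_P0 : IsRatPointPair cc.chart0 (P0pair cc) :=
  Or.inr ⟨RingHom.ker cc.P0, ker_P0_isMaximal cc, quotient_ker_P0_surjective cc, rfl⟩

end Fermat.Agent.Jac.CurveHyp80
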