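/-
Fermat/Agent/Jac/CurveHyp80/Points.lean  (helper80)

JAC programme, brick Q3c-CurveHyp, part 2: `k`-points of a `k`-scheme and their ideals.

For a `k`-point `x : Spec k ⟶ C` of a `k`-scheme `c : C ⟶ Spec k` and an open `U ⊆ C`:
* `pointIdeal x U : Ideal Γ(C, U)`, the sections over `U` of the ideal sheaf of the point `x`
  (kernel of `x.app U : Γ(C, U) → Γ(Spec k, x⁻¹U)`); it is `⊤` if `x ∉ U`
  (`pointIdeal_eq_top`) and the kernel of the evaluation `evalAt x U hx : Γ(C, U) →+* k` if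
  `x ∈ U` (`pointIdeal_eq_ker_evalAt`);
* `evalAt` is compatible with restriction (`evalAt_res`) and is a retraction of the structure map
  `k → Γ(C, U)` (`evalAt_sectionsRingHom`);
* a function `f` on `U ∋ x` with `x ∉ D(f)` vanishes at `x` (`mem_pointIdeal_of_preimage_basicOpen`).
-/
import Fermat.Agent.Jac.CurveHyp80.Instance
import Fermat.Agent.Jac.FiniteToLine80.LineMap

set_option autoImplicit false
set_option linter.unusedSectionVars false
set_option linter.style.haveILetI false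

open CategoryTheory CategoryTheory.Limits AlgebraicGeometry TopologicalSpace Opposite
open NeronModelInfra

universe u

noncomputable section

namespace Fermat.Agent.Jac.CurveHyp80

section Generic

variable {k : Type u} [Field k] {C : Scheme.{u}} {c : C ⟶ Spec (CommRingCat.of k)}

theorem subsingleton_Spec_field : Subsingleton (Spec (CommRingCat.of k)) :=
  inferInstanceAs (Subsingleton (PrimeSpectrum k))

theorem nonempty_Spec_field : Nonempty (Spec (CommRingCat.of k)) :=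
  inferInstanceAs (Nonempty (PrimeSpectrum k))

/-- An open subset of the spectrum of a field is everything or empty. -/
lemma opens_eq_top_or_bot (V : (Spec (CommRingCat.of k)).Opens) : V = ⊤ ∨ V = ⊥ := by
  haveI := subsingleton_Spec_field (k := k)
  by_cases h : (V : Set (Spec (CommRingCat.of k))).Nonempty
  · left
    obtain ⟨p, hp⟩ := h
    rw [eq_top_iff]
    intro q _
    rw [Subsingleton.elim q p]
    exact hp
  · right
    exact (Opens.not_nonempty_iff_eq_bot V).1 h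

lemma top_ne_bot_Spec_field : (⊤ : (Spec (CommRingCat.of k)).Opens) ≠ ⊥ := by
  intro h
  obtain ⟨p⟩ := nonempty_Spec_field (k := k)
  have : p ∈ (⊥ : (Spec (CommRingCat.of k)).Opens) := h ▸ (trivial : p ∈ (⊤ : Opens _))
  exact this

variable (x : SchemeHomOver (𝟙 (Spec (CommRingCat.of k))) c)

/-- Either `x ∈ U` or `x ∉ U`. -/
lemma preimage_eq_top_or_bot (U : C.Opens) : x.1 ⁻¹ᵁ U = ⊤ ∨ x.1 ⁻¹ᵁ U = ⊥ :=
  opens_eq_top_or_bot _

/-- The sections over `U` of the ideal sheaf of the point `x`. -/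
def pointIdeal (U : C.Opens) : Ideal Γ(C, U) := RingHom.ker (x.1.app U).hom

lemma mem_pointIdeal {U : C.Opens} (f : Γ(C, U)) :
    f ∈ pointIdeal x U ↔ (x.1.app U).hom f = 0 := RingHom.mem_ker

/-- If `x ∉ U`, the ideal of `x` on `U` is the unit ideal. -/
lemma pointIdeal_eq_top {U : C.Opens} (h : x.1 ⁻¹ᵁ U = ⊥) : pointIdeal x U = ⊤ := by
  haveI : Subsingleton Γ(Spec (CommRingCat.of k), x.1 ⁻¹ᵁ U) := by rw [h]; infer_instance
  rw [Ideal.eq_top_iff_one, mem_pointIdeal]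
  exact Subsingleton.elim _ _

/-- Evaluation at a point `x ∈ U`. -/
def evalAt (U : C.Opens) (hx : x.1 ⁻¹ᵁ U = ⊤) : Γ(C, U) →+* k :=
  (x.1.appLE U ⊤ (by rw [hx]) ≫ (Scheme.ΓSpecIso (CommRingCat.of k)).hom).hom

lemma evalAt_apply (U : C.Opens) (hx : x.1 ⁻¹ᵁ U = ⊤) (f : Γ(C, U)) :
    evalAt x U hx f = (Scheme.ΓSpecIso (CommRingCat.of k)).hom.hom
      (((Spec (CommRingCat.of k)).presheaf.map (homOfLE (by rw [hx] : ⊤ ≤ x.1 ⁻¹ᵁ U)).op).hom
        ((x.1.app U).hom f)) := rfl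

lemma evalAt_eq_zero_iff (U : C.Opens) (hx : x.1 ⁻¹ᵁ U = ⊤) (f : Γ(C, U)) :
    evalAt x U hx f = 0 ↔ (x.1.app U).hom f = 0 := by
  rw [evalAt_apply]
  have h1 : Function.Injective (Scheme.ΓSpecIso (CommRingCat.of k)).hom.hom :=
    (ConcreteCategory.bijective_of_isIso (Scheme.ΓSpecIso (CommRingCat.of k)).hom).1
  have h2 : Function.Injective
      ((Spec (CommRingCat.of k)).presheaf.map (homOfLE (by rw [hx] : ⊤ ≤ x.1 ⁻¹ᵁ U)).op).hom := by
    have hcomp : (Spec (CommRingCat.of k)).presheaf.map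
          (homOfLE (by rw [hx] : ⊤ ≤ x.1 ⁻¹ᵁ U)).op ≫
        (Spec (CommRingCat.of k)).presheaf.map (homOfLE (le_top : x.1 ⁻¹ᵁ U ≤ ⊤)).op = 𝟙 _ := by
      rw [← Functor.map_comp]
      exact (Spec (CommRingCat.of k)).presheaf.map_id _
    intro a b hab
    have := congrArg ((Spec (CommRingCat.of k)).presheaf.map
      (homOfLE (le_top : x.1 ⁻¹ᵁ U ≤ ⊤)).op).hom hab
    have ha := congrArg (fun φ => φ.hom a) hcomp
    have hb := congrArg (fun φ => φ.hom b) hcomp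
    simp only [CommRingCat.hom_comp, RingHom.coe_comp, Function.comp_apply,
      CommRingCat.hom_id, RingHom.id_apply] at ha hb
    rw [← ha, ← hb]
    exact this
  rw [map_eq_zero_iff _ h1, map_eq_zero_iff _ h2]

/-- If `x ∈ U`, the ideal of `x` on `U` is the kernel of the evaluation at `x`. -/
lemma pointIdeal_eq_ker_evalAt {U : C.Opens} (hx : x.1 ⁻¹ᵁ U = ⊤) :
    pointIdeal x U = RingHom.ker (evalAt x U hx) := by
  ext f
  rw [mem_pointIdeal, RingHom.mem_ker, evalAt_eq_zero_iff]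

/-- Evaluation is compatible with restriction. -/
lemma evalAt_res {U V : C.Opens} (hVU : V ≤ U) (hV : x.1 ⁻¹ᵁ V = ⊤) (hU : x.1 ⁻¹ᵁ U = ⊤)
    (f : Γ(C, U)) :
    evalAt x V hV ((C.presheaf.map (homOfLE hVU).op).hom f) = evalAt x U hU f := by
  have h : C.presheaf.map (homOfLE hVU).op ≫ x.1.appLE V ⊤ (by rw [hV]) =
      x.1.appLE U ⊤ (by rw [hU]) := Scheme.Hom.map_appLE x.1 (by rw [hV]) (homOfLE hVU).op
  have h' := congrArg (fun φ => (φ ≫ (Scheme.ΓSpecIso (CommRingCat.of k)).hom).hom f) h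
  exact h'

/-- Evaluation at a `k`-point is a retraction of the structure map. -/
lemma evalAt_sectionsRingHom (U : C.Opens) (hx : x.1 ⁻¹ᵁ U = ⊤) (a : k) :
    evalAt x U hx (sectionsRingHom c U a) = a := by
  have h0 : c.appTop ≫ x.1.appLE ⊤ ⊤ le_top = 𝟙 _ := by
    have h := (Scheme.Hom.comp_appLE x.1 c ⊤ ⊤ le_top).symm
    have e : x.1 ≫ c = 𝟙 _ := x.2
    rw [e] at h
    refine h.trans ?_
    simp [Scheme.Hom.appLE]
  have h1 : (Scheme.ΓSpecIso (CommRingCat.of k)).inv ≫ c.appTop ≫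
      C.presheaf.map (homOfLE (le_top : U ≤ ⊤)).op ≫
      x.1.appLE U ⊤ (by rw [hx]) ≫ (Scheme.ΓSpecIso (CommRingCat.of k)).hom = 𝟙 _ := by
    rw [Scheme.Hom.map_appLE_assoc, reassoc_of% h0]
    simp
  exact congrArg (fun f => f.hom a) h1

/-- A function on `U ∋ x` whose non-vanishing locus does not contain `x` vanishes at `x`. -/
lemma mem_pointIdeal_of_preimage_basicOpen {U : C.Opens} (f : Γ(C, U))
    (h : x.1 ⁻¹ᵁ (C.basicOpen f) = ⊥) : f ∈ pointIdeal x U := by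
  rw [mem_pointIdeal]
  rw [Scheme.preimage_basicOpen] at h
  exact (basicOpen_eq_bot_iff _).1 h

end Generic

/-! ### The `k`-point of an affine open defined by a retraction of the structure map -/

section Construct

open Fermat.Agent.Jac.FiniteToLine80

variable {k : Type u} [Field k] {C : Scheme.{u}} (c : C ⟶ Spec (CommRingCat.of k))
  {U : C.Opens} (hU : IsAffineOpen U)

lemma fromSpec_comp_structure : hU.fromSpec ≫ c = Spec.map (kToSection c U) := by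
  rw [← cancel_epi hU.isoSpec.hom, IsAffineOpen.isoSpec_hom_fromSpec_assoc,
    IsAffineOpen.isoSpec_hom, toSpecΓ_SpecMap_kToSection]

variable (φ : Γ(C, U) →+* k) (hφ : ∀ a, φ (sectionsRingHom c U a) = a)

/-- The `k`-point of `C` (lying in the affine open `U`) defined by a retraction `φ : Γ(C, U) → k`
of the structure map. -/
def pointOfRingHom : SchemeHomOver (𝟙 (Spec (CommRingCat.of k))) c :=
  ⟨Spec.map (CommRingCat.ofHom φ) ≫ hU.fromSpec, by
    rw [Category.assoc, fromSpec_comp_structure, ← Spec.map_comp]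
    have h : kToSection c U ≫ CommRingCat.ofHom φ = 𝟙 _ := by
      ext a
      exact hφ a
    rw [h, Spec.map_id]⟩

lemma pointOfRingHom_preimage : (pointOfRingHom c hU φ hφ).1 ⁻¹ᵁ U = ⊤ := by
  change Spec.map (CommRingCat.ofHom φ) ⁻¹ᵁ (hU.fromSpec ⁻¹ᵁ U) = ⊤
  rw [hU.fromSpec_preimage_self]
  rfl

lemma ker_le_pointIdeal_pointOfRingHom :
    RingHom.ker φ ≤ pointIdeal (pointOfRingHom c hU φ hφ) U := by
  intro f hf
  apply mem_pointIdeal_of_preimage_basicOpen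
  change Spec.map (CommRingCat.ofHom φ) ⁻¹ᵁ (hU.fromSpec ⁻¹ᵁ (C.basicOpen f)) = ⊥
  rw [hU.fromSpec_preimage_basicOpen, SpecMap_preimage_basicOpen]
  have h0 : (CommRingCat.ofHom φ).hom f = 0 := hf
  rw [h0]
  exact PrimeSpectrum.basicOpen_zero

end Construct

/-! ### `k`-algebra homomorphisms to `k` -/

section AlgHom

variable {k : Type u} [Field k] {R : Type u} [CommRing R] [Algebra k R] (φ : R →ₐ[k] k)

lemma algHom_surjective : Function.Surjective φ := fun a => ⟨algebraMap k R a, φ.commutes a⟩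

lemma ker_algHom_isMaximal : (RingHom.ker φ).IsMaximal :=
  RingHom.ker_isMaximal_of_surjective φ (algHom_surjective φ)

lemma quotient_ker_algHom_surjective :
    Function.Surjective (algebraMap k (R ⧸ RingHom.ker φ)) := by
  intro y
  obtain ⟨b, rfl⟩ := Ideal.Quotient.mk_surjective y
  refine ⟨φ b, ?_⟩
  change Ideal.Quotient.mk _ (algebraMap k R (φ b)) = Ideal.Quotient.mk _ b
  rw [Ideal.Quotient.eq, RingHom.mem_ker, map_sub, φ.commutes]
  exact sub_self _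

end AlgHom

/-! ### The ideal pair of a `k`-point of the curve -/

section Curve

open Fermat.Agent.Jac Fermat.Agent.Jac.TwoCoverGammaSetting Fermat.Agent.Jac.LineOps39
  Fermat.Agent.Jac.AbelJacobi73

variable {k : Type u} [Field k] {C : Scheme.{u}} {c : C ⟶ Spec (CommRingCat.of k)}
  {ε : SchemeHomOver (𝟙 (Spec (CommRingCat.of k))) c} (cc : CurveCharts c ε)
  (x : SchemeHomOver (𝟙 (Spec (CommRingCat.of k))) c)

/-- The ideal of the point `x` in the first chart. -/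
def I0 : Ideal cc.B0 := pointIdeal x cc.U0
/-- The ideal of the point `x` in the second chart. -/
def I1 : Ideal cc.B1 := pointIdeal x cc.U1

/-- Evaluation at `x ∈ U0` as a `k`-algebra homomorphism. -/
def evalAlg0 (hx : x.1 ⁻¹ᵁ cc.U0 = ⊤) : cc.B0 →ₐ[k] k :=
  { evalAt x cc.U0 hx with
    commutes' := fun a => by
      change evalAt x cc.U0 hx (cc.cover0.str0 a) = a
      rw [str0_eq]
      exact evalAt_sectionsRingHom x cc.U0 hx a }

/-- Evaluation at `x ∈ U1` as a `k`-algebra homomorphism. -/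
def evalAlg1 (hx : x.1 ⁻¹ᵁ cc.U1 = ⊤) : cc.B1 →ₐ[k] k :=
  { evalAt x cc.U1 hx with
    commutes' := fun a => by
      change evalAt x cc.U1 hx (cc.cover0.str1 a) = a
      rw [str1_eq]
      exact evalAt_sectionsRingHom x cc.U1 hx a }

lemma I0_eq_ker (hx : x.1 ⁻¹ᵁ cc.U0 = ⊤) : I0 cc x = RingHom.ker (evalAlg0 cc x hx) :=
  pointIdeal_eq_ker_evalAt x hx

lemma I1_eq_ker (hx : x.1 ⁻¹ᵁ cc.U1 = ⊤) : I1 cc x = RingHom.ker (evalAlg1 cc x hx) :=
  pointIdeal_eq_ker_evalAt x hx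

lemma I0_eq_top (hx : x.1 ⁻¹ᵁ cc.U0 = ⊥) : I0 cc x = ⊤ := pointIdeal_eq_top x hx

lemma I1_eq_top (hx : x.1 ⁻¹ᵁ cc.U1 = ⊥) : I1 cc x = ⊤ := pointIdeal_eq_top x hx

/-- Every `k`-point lies in one of the two charts. -/
lemma mem_U0_or_mem_U1 : x.1 ⁻¹ᵁ cc.U0 = ⊤ ∨ x.1 ⁻¹ᵁ cc.U1 = ⊤ := by
  rcases preimage_eq_top_or_bot x cc.U0 with h0 | h0
  · exact Or.inl h0
  rcases preimage_eq_top_or_bot x cc.U1 with h1 | h1
  · exact Or.inr h1
  exfalso
  have h : x.1 ⁻¹ᵁ (cc.U0 ⊔ cc.U1) = ⊤ := by rw [cc.cover]; rfl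
  have h' : x.1 ⁻¹ᵁ (cc.U0 ⊔ cc.U1) = x.1 ⁻¹ᵁ cc.U0 ⊔ x.1 ⁻¹ᵁ cc.U1 := rfl
  rw [h', h0, h1, bot_sup_eq] at h
  exact top_ne_bot_Spec_field h.symm

lemma preimage_inf : x.1 ⁻¹ᵁ (cc.U0 ⊓ cc.U1) = x.1 ⁻¹ᵁ cc.U0 ⊓ x.1 ⁻¹ᵁ cc.U1 := rfl

lemma preimage_inf_eq_top (h0 : x.1 ⁻¹ᵁ cc.U0 = ⊤) (h1 : x.1 ⁻¹ᵁ cc.U1 = ⊤) :
    x.1 ⁻¹ᵁ (cc.U0 ⊓ cc.U1) = ⊤ := by
  rw [preimage_inf, h0, h1, top_inf_eq]

/-- Evaluation at `x ∈ U0 ∩ U1` as a `k`-algebra homomorphism. -/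
def evalAlg01 (h0 : x.1 ⁻¹ᵁ cc.U0 = ⊤) (h1 : x.1 ⁻¹ᵁ cc.U1 = ⊤) : cc.B01 →ₐ[k] k :=
  { evalAt x (cc.U0 ⊓ cc.U1) (preimage_inf_eq_top cc x h0 h1) with
    commutes' := fun a => by
      change evalAt x (cc.U0 ⊓ cc.U1) (preimage_inf_eq_top cc x h0 h1) (cc.cover0.str01 a) = a
      rw [show cc.cover0.str01 = sectionsRingHom c (cc.U0 ⊓ cc.U1) from
        BridgeCharts33.cover0_str01 cc]
      exact evalAt_sectionsRingHom x (cc.U0 ⊓ cc.U1) _ a }

/-- The ideal of `x ∈ U0 ∩ U1` on the overlap. -/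
def I01 (h0 : x.1 ⁻¹ᵁ cc.U0 = ⊤) (h1 : x.1 ⁻¹ᵁ cc.U1 = ⊤) : Ideal cc.B01 :=
  RingHom.ker (evalAlg01 cc x h0 h1)

lemma mem_I0_iff (h0 : x.1 ⁻¹ᵁ cc.U0 = ⊤) (f : cc.B0) :
    f ∈ I0 cc x ↔ evalAlg0 cc x h0 f = 0 := by
  rw [I0_eq_ker cc x h0]; exact RingHom.mem_ker

lemma mem_I1_iff (h1 : x.1 ⁻¹ᵁ cc.U1 = ⊤) (f : cc.B1) :
    f ∈ I1 cc x ↔ evalAlg1 cc x h1 f = 0 := by
  rw [I1_eq_ker cc x h1]; exact RingHom.mem_ker

lemma evalAlg01_algebraMap0 (h0 : x.1 ⁻¹ᵁ cc.U0 = ⊤) (h1 : x.1 ⁻¹ᵁ cc.U1 = ⊤) (f : cc.B0) :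
    evalAlg01 cc x h0 h1 (algebraMap cc.B0 cc.B01 f) = evalAlg0 cc x h0 f :=
  evalAt_res x (inf_le_left : cc.U0 ⊓ cc.U1 ≤ cc.U0) (preimage_inf_eq_top cc x h0 h1) h0 f

lemma evalAlg01_algebraMap1 (h0 : x.1 ⁻¹ᵁ cc.U0 = ⊤) (h1 : x.1 ⁻¹ᵁ cc.U1 = ⊤) (f : cc.B1) :
    evalAlg01 cc x h0 h1 (algebraMap cc.B1 cc.B01 f) = evalAlg1 cc x h1 f :=
  evalAt_res x (inf_le_right : cc.U0 ⊓ cc.U1 ≤ cc.U1) (preimage_inf_eq_top cc x h0 h1) h1 f

lemma I0_eq_comap (h0 : x.1 ⁻¹ᵁ cc.U0 = ⊤) (h1 : x.1 ⁻¹ᵁ cc.U1 = ⊤) :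
    I0 cc x = (I01 cc x h0 h1).comap (algebraMap cc.B0 cc.B01) := by
  ext f
  rw [mem_I0_iff cc x h0, Ideal.mem_comap, I01, RingHom.mem_ker, evalAlg01_algebraMap0]

lemma I1_eq_comap (h0 : x.1 ⁻¹ᵁ cc.U0 = ⊤) (h1 : x.1 ⁻¹ᵁ cc.U1 = ⊤) :
    I1 cc x = (I01 cc x h0 h1).comap (algebraMap cc.B1 cc.B01) := by
  ext f
  rw [mem_I1_iff cc x h1, Ideal.mem_comap, I01, RingHom.mem_ker, evalAlg01_algebraMap1]

lemma map_I0_of_mem (h0 : x.1 ⁻¹ᵁ cc.U0 = ⊤) (h1 : x.1 ⁻¹ᵁ cc.U1 = ⊤) :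
    (I0 cc x).map (algebraMap cc.B0 cc.B01) = I01 cc x h0 h1 := by
  haveI := cc.chart0.away0
  rw [I0_eq_comap cc x h0 h1]
  exact IsLocalization.map_under (Submonoid.powers cc.chart0.t) cc.B01 _

lemma map_I1_of_mem (h0 : x.1 ⁻¹ᵁ cc.U0 = ⊤) (h1 : x.1 ⁻¹ᵁ cc.U1 = ⊤) :
    (I1 cc x).map (algebraMap cc.B1 cc.B01) = I01 cc x h0 h1 := by
  haveI := cc.chart0.away1
  rw [I1_eq_comap cc x h0 h1]
  exact IsLocalization.map_under (Submonoid.powers cc.chart0.s) cc.B01 _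

lemma t_mem_I0 (h1 : x.1 ⁻¹ᵁ cc.U1 = ⊥) : cc.chart0.t ∈ I0 cc x := by
  apply mem_pointIdeal_of_preimage_basicOpen x cc.t
  rw [← cc.inter0, preimage_inf, h1, inf_bot_eq]

lemma s_mem_I1 (h0 : x.1 ⁻¹ᵁ cc.U0 = ⊥) : cc.chart0.s ∈ I1 cc x := by
  apply mem_pointIdeal_of_preimage_basicOpen x cc.s
  rw [← cc.inter1, preimage_inf, h0, bot_inf_eq]

lemma map_I0_of_not_mem (h1 : x.1 ⁻¹ᵁ cc.U1 = ⊥) :
    (I0 cc x).map (algebraMap cc.B0 cc.B01) = ⊤ := by
  haveI := cc.chart0.away0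
  exact Ideal.eq_top_of_isUnit_mem _ (Ideal.mem_map_of_mem _ (t_mem_I0 cc x h1))
    (IsLocalization.Away.algebraMap_isUnit cc.chart0.t)

lemma map_I1_of_not_mem (h0 : x.1 ⁻¹ᵁ cc.U0 = ⊥) :
    (I1 cc x).map (algebraMap cc.B1 cc.B01) = ⊤ := by
  haveI := cc.chart0.away1
  exact Ideal.eq_top_of_isUnit_mem _ (Ideal.mem_map_of_mem _ (s_mem_I1 cc x h0))
    (IsLocalization.Away.algebraMap_isUnit cc.chart0.s)

/-- **The ideal pair of a `k`-point of the curve.** -/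
def pointPair : IdealPair cc.B0 cc.B1 cc.B01 where
  I0 := I0 cc x
  I1 := I1 cc x
  compat := by
    rcases preimage_eq_top_or_bot x cc.U0 with h0 | h0 <;>
      rcases preimage_eq_top_or_bot x cc.U1 with h1 | h1
    · rw [map_I0_of_mem cc x h0 h1, map_I1_of_mem cc x h0 h1]
    · rw [map_I0_of_not_mem cc x h1, I1_eq_top cc x h1, Ideal.map_top]
    · rw [map_I1_of_not_mem cc x h0, I0_eq_top cc x h0, Ideal.map_top]
    · rw [I0_eq_top cc x h0, I1_eq_top cc x h1, Ideal.map_top, Ideal.map_top]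

@[simp] lemma pointPair_I0 : (pointPair cc x).I0 = I0 cc x := rfl
@[simp] lemma pointPair_I1 : (pointPair cc x).I1 = I1 cc x := rfl

/-- A point of the first chart: the pair is the closure of the closed point `I0 x` of `Spec B0`. -/
theorem pointPair_eq_ofChart0 (h0 : x.1 ⁻¹ᵁ cc.U0 = ⊤) :
    pointPair cc x = IdealPair.ofChart0 cc.chart0 (I0 cc x) := by
  apply idealPair_ext
  · rfl
  · change I1 cc x = ((I0 cc x).map (algebraMap cc.B0 cc.B01)).comap (algebraMap cc.B1 cc.B01)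
    rcases preimage_eq_top_or_bot x cc.U1 with h1 | h1
    · rw [map_I0_of_mem cc x h0 h1, ← I1_eq_comap cc x h0 h1]
    · rw [map_I0_of_not_mem cc x h1, Ideal.comap_top, I1_eq_top cc x h1]

/-- A point of the second chart. -/
theorem pointPair_eq_ofChart1 (h1 : x.1 ⁻¹ᵁ cc.U1 = ⊤) :
    pointPair cc x = IdealPair.ofChart1 cc.chart0 (I1 cc x) := by
  apply idealPair_ext
  · change I0 cc x = ((I1 cc x).map (algebraMap cc.B1 cc.B01)).comap (algebraMap cc.B0 cc.B01)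
    rcases preimage_eq_top_or_bot x cc.U0 with h0 | h0
    · rw [map_I1_of_mem cc x h0 h1, ← I0_eq_comap cc x h0 h1]
    · rw [map_I1_of_not_mem cc x h0, Ideal.comap_top, I0_eq_top cc x h0]
  · rfl

/-- The ideal pair of a `k`-point is a rational point of the two-chart ring. -/
theorem isRatPointPair_pointPair : IsRatPointPair cc.chart0 (pointPair cc x) := by
  rcases mem_U0_or_mem_U1 cc x with h0 | h1
  · refine Or.inl ⟨I0 cc x, ?_, ?_, pointPair_eq_ofChart0 cc x h0⟩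
    · rw [I0_eq_ker cc x h0]; exact ker_algHom_isMaximal _
    · rw [I0_eq_ker cc x h0]; exact quotient_ker_algHom_surjective _
  · refine Or.inr ⟨I1 cc x, ?_, ?_, pointPair_eq_ofChart1 cc x h1⟩
    · rw [I1_eq_ker cc x h1]; exact ker_algHom_isMaximal _
    · rw [I1_eq_ker cc x h1]; exact quotient_ker_algHom_surjective _

/-- The base point `ε` gives the pair `P0pair`. -/
theorem pointPair_base : pointPair cc ε = P0pair cc := by
  rw [pointPair_eq_ofChart1 cc ε cc.base_mem, I1_eq_ker cc ε cc.base_mem]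
  rfl

/-! ### every rational point pair comes from a `k`-point -/

section Surj

variable {R : Type u} [CommRing R] [Algebra k R]

/-- The `k`-algebra homomorphism `R → k` attached to a maximal ideal with residue field `k`. -/
def algHomOfMaximal (m : Ideal R) (hm : m.IsMaximal)
    (hs : Function.Surjective (algebraMap k (R ⧸ m))) : R →ₐ[k] k :=
  haveI : Nontrivial (R ⧸ m) := Ideal.Quotient.nontrivial_iff.2 hm.ne_top
  ((AlgEquiv.ofBijective (Algebra.ofId k (R ⧸ m))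
    ⟨(algebraMap k (R ⧸ m)).injective, hs⟩).symm : (R ⧸ m) →ₐ[k] k).comp (Ideal.Quotient.mkₐ k m)

lemma ker_algHomOfMaximal (m : Ideal R) (hm : m.IsMaximal)
    (hs : Function.Surjective (algebraMap k (R ⧸ m))) :
    RingHom.ker (algHomOfMaximal m hm hs) = m := by
  ext f
  rw [RingHom.mem_ker]
  haveI : Nontrivial (R ⧸ m) := Ideal.Quotient.nontrivial_iff.2 hm.ne_top
  have h : algHomOfMaximal m hm hs f =
      (AlgEquiv.ofBijective (Algebra.ofId k (R ⧸ m))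
        ⟨(algebraMap k (R ⧸ m)).injective, hs⟩).symm (Ideal.Quotient.mk m f) := rfl
  rw [h, map_eq_zero_iff _ (AlgEquiv.injective _), Ideal.Quotient.eq_zero_iff_mem]

end Surj

/-- The `k`-point of the first chart attached to a `k`-algebra homomorphism `B0 → k`. -/
def pointOfAlgHom0 (φ : cc.B0 →ₐ[k] k) : SchemeHomOver (𝟙 (Spec (CommRingCat.of k))) c :=
  pointOfRingHom c cc.affine0 (φ : cc.B0 →+* k) (fun a => by
    rw [← str0_eq]
    exact φ.commutes a)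

/-- The `k`-point of the second chart attached to a `k`-algebra homomorphism `B1 → k`. -/
def pointOfAlgHom1 (φ : cc.B1 →ₐ[k] k) : SchemeHomOver (𝟙 (Spec (CommRingCat.of k))) c :=
  pointOfRingHom c cc.affine1 (φ : cc.B1 →+* k) (fun a => by
    rw [← str1_eq]
    exact φ.commutes a)

lemma pointOfAlgHom0_mem (φ : cc.B0 →ₐ[k] k) : (pointOfAlgHom0 cc φ).1 ⁻¹ᵁ cc.U0 = ⊤ :=
  pointOfRingHom_preimage c cc.affine0 _ _

lemma pointOfAlgHom1_mem (φ : cc.B1 →ₐ[k] k) : (pointOfAlgHom1 cc φ).1 ⁻¹ᵁ cc.U1 = ⊤ :=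
  pointOfRingHom_preimage c cc.affine1 _ _

lemma I0_pointOfAlgHom0 (φ : cc.B0 →ₐ[k] k) : I0 cc (pointOfAlgHom0 cc φ) = RingHom.ker φ := by
  have hle : RingHom.ker φ ≤ I0 cc (pointOfAlgHom0 cc φ) :=
    ker_le_pointIdeal_pointOfRingHom c cc.affine0 _ _
  have hmax : (I0 cc (pointOfAlgHom0 cc φ)).IsMaximal := by
    rw [I0_eq_ker cc _ (pointOfAlgHom0_mem cc φ)]
    exact ker_algHom_isMaximal _
  exact ((ker_algHom_isMaximal φ).eq_of_le hmax.ne_top hle).symm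

lemma I1_pointOfAlgHom1 (φ : cc.B1 →ₐ[k] k) : I1 cc (pointOfAlgHom1 cc φ) = RingHom.ker φ := by
  have hle : RingHom.ker φ ≤ I1 cc (pointOfAlgHom1 cc φ) :=
    ker_le_pointIdeal_pointOfRingHom c cc.affine1 _ _
  have hmax : (I1 cc (pointOfAlgHom1 cc φ)).IsMaximal := by
    rw [I1_eq_ker cc _ (pointOfAlgHom1_mem cc φ)]
    exact ker_algHom_isMaximal _
  exact ((ker_algHom_isMaximal φ).eq_of_le hmax.ne_top hle).symm

theorem pointPair_pointOfAlgHom0 (φ : cc.B0 →ₐ[k] k) :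
    pointPair cc (pointOfAlgHom0 cc φ) = IdealPair.ofChart0 cc.chart0 (RingHom.ker φ) := by
  rw [pointPair_eq_ofChart0 cc _ (pointOfAlgHom0_mem cc φ), I0_pointOfAlgHom0]

theorem pointPair_pointOfAlgHom1 (φ : cc.B1 →ₐ[k] k) :
    pointPair cc (pointOfAlgHom1 cc φ) = IdealPair.ofChart1 cc.chart0 (RingHom.ker φ) := by
  rw [pointPair_eq_ofChart1 cc _ (pointOfAlgHom1_mem cc φ), I1_pointOfAlgHom1]

/-- **Every rational point pair of the two-chart ring of the curve is the ideal pair of a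
`k`-point of the curve.** -/
theorem exists_point_of_isRatPointPair {X : IdealPair cc.B0 cc.B1 cc.B01}
    (hX : IsRatPointPair cc.chart0 X) :
    ∃ x : SchemeHomOver (𝟙 (Spec (CommRingCat.of k))) c, pointPair cc x = X := by
  rcases hX with ⟨m, hm, hs, rfl⟩ | ⟨m, hm, hs, rfl⟩
  · refine ⟨pointOfAlgHom0 cc (algHomOfMaximal m hm hs), ?_⟩
    rw [pointPair_pointOfAlgHom0, ker_algHomOfMaximal]
  · refine ⟨pointOfAlgHom1 cc (algHomOfMaximal m hm hs), ?_⟩
    rw [pointPair_pointOfAlgHom1, ker_algHomOfMaximal]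

/-- `IsRatPointPair` is exactly "comes from a `k`-point". -/
theorem isRatPointPair_iff_exists_point {X : IdealPair cc.B0 cc.B1 cc.B01} :
    IsRatPointPair cc.chart0 X ↔
      ∃ x : SchemeHomOver (𝟙 (Spec (CommRingCat.of k))) c, pointPair cc x = X :=
  ⟨exists_point_of_isRatPointPair cc, fun ⟨x, hx⟩ => hx ▸ isRatPointPair_pointPair cc x⟩

end Curve

end Fermat.Agent.Jac.CurveHyp80
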