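/-
Fermat/Agent/Jac/CurveHyp80/FieldK.lean  (helper80)

JAC programme, brick Q3c-CurveHyp, part 4: `AbelJacobi73.CurveHyp` for the base-changed two-chart
ring `cc.chartA K` over a field `K` with `algebraMap k K` bijective (`k` algebraically closed).
This is the form needed at the "exotic" `k`-algebra structures on `k` produced by
`Spec.preimage` (helper84's remark): take `K := k` with that instance.

* `tensorEquiv K hK R : K ⊗[k] R ≃ₐ[k] R`;
* `isDedekindDomain_of_ringEquiv`;
* `isDedekindDomain_KB0`, `isDedekindDomain_KB1`, `isDomain_KB01`, `isAlgClosed_K`;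
* `curveHypK cc K hK : CurveHyp (cc.chartA K)`.
-/
import Fermat.Agent.Jac.CurveHyp80.Instance
import Fermat.Agent.Jac.AffineDict87.Statement

set_option autoImplicit false
set_option linter.unusedSectionVars false
set_option linter.style.haveILetI false

open CategoryTheory CategoryTheory.Limits AlgebraicGeometry TopologicalSpace Opposite
open NeronModelInfra TensorProduct

universe u

noncomputable section

namespace Fermat.Agent.Jac.CurveHyp80

open scoped Fermat.Agent.Jac.BaseChange75
open Fermat.Agent.Jac Fermat.Agent.Jac.TwoCoverGammaSetting Fermat.Agent.Jac.LineOps39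
  Fermat.Agent.Jac.AbelJacobi73

/-- Dedekind domains are stable under ring isomorphisms. -/
theorem isDedekindDomain_of_ringEquiv {R S : Type*} [CommRing R] [CommRing S]
    [IsDedekindDomain S] (e : S ≃+* R) : IsDedekindDomain R := by
  letI : Algebra S R := e.toRingHom.toAlgebra
  haveI : IsDomain R := e.symm.toMulEquiv.isDomain S
  haveI : IsLocalization (⊥ : Submonoid S) R :=
    IsLocalization.of_le_isUnit_of_bijective (by
      rintro x ⟨y, hy, rfl⟩
      have hy' : y = 1 := Submonoid.mem_bot.1 hy
      rw [hy', map_one]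
      exact isUnit_one) e.bijective
  exact IsLocalization.isDedekindDomain S (M := ⊥) bot_le R

section Equiv

variable {k : Type u} [Field k] (K : Type u) [Field K] [Algebra k K]
  (hK : Function.Bijective (algebraMap k K))

/-- `K ≃ₐ[k] k` when the structure map is bijective. -/
def fieldEquiv : K ≃ₐ[k] k := (AlgEquiv.ofBijective (Algebra.ofId k K) hK).symm

/-- `K ⊗[k] R ≃ₐ[k] R` when `k → K` is bijective. -/
def tensorEquiv (R : Type u) [CommRing R] [Algebra k R] : K ⊗[k] R ≃ₐ[k] R :=
  (Algebra.TensorProduct.congr (fieldEquiv K hK) AlgEquiv.refl).trans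
    (Algebra.TensorProduct.lid k R)

@[simp]
lemma tensorEquiv_tmul (R : Type u) [CommRing R] [Algebra k R] (a : K) (r : R) :
    tensorEquiv K hK R (a ⊗ₜ[k] r) = fieldEquiv K hK a • r := by
  simp [tensorEquiv]

include hK in
theorem isAlgClosed_K [IsAlgClosed k] : IsAlgClosed K :=
  IsAlgClosed.of_ringEquiv (k := k) K (RingEquiv.ofBijective (algebraMap k K) hK)

end Equiv

variable {k : Type u} [Field k] {C : Scheme.{u}} {c : C ⟶ Spec (CommRingCat.of k)}
  {ε : SchemeHomOver (𝟙 (Spec (CommRingCat.of k))) c} (cc : CurveCharts c ε)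
  (K : Type u) [Field K] [Algebra k K] (hK : Function.Bijective (algebraMap k K))

include hK

theorem isDedekindDomain_KB0 : IsDedekindDomain (K ⊗[k] cc.B0) :=
  haveI := isDedekindDomain_B0 cc
  isDedekindDomain_of_ringEquiv (tensorEquiv K hK cc.B0).symm.toRingEquiv

theorem isDedekindDomain_KB1 : IsDedekindDomain (K ⊗[k] cc.B1) :=
  haveI := isDedekindDomain_B1 cc
  isDedekindDomain_of_ringEquiv (tensorEquiv K hK cc.B1).symm.toRingEquiv

theorem isDomain_KB01 : IsDomain (K ⊗[k] cc.B01) :=
  haveI := isDomain_B01 cc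
  (tensorEquiv K hK cc.B01).toRingEquiv.toMulEquiv.isDomain cc.B01

theorem not_isField_KB0 : ¬ IsField (K ⊗[k] cc.B0) := fun h =>
  not_isField_B0 cc ((tensorEquiv K hK cc.B0).symm.toRingEquiv.toMulEquiv.isField h)

theorem not_isField_KB1 : ¬ IsField (K ⊗[k] cc.B1) := fun h =>
  not_isField_B1 cc ((tensorEquiv K hK cc.B1).symm.toRingEquiv.toMulEquiv.isField h)

omit hK in
theorem finiteType_KB0 : Algebra.FiniteType K (K ⊗[k] cc.B0) :=
  haveI := finiteType_B0 cc
  inferInstance

omit hK in
theorem finiteType_KB1 : Algebra.FiniteType K (K ⊗[k] cc.B1) :=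
  haveI := finiteType_B1 cc
  inferInstance

omit hK in
theorem finiteProjOverLine_chartA : (cc.chartA K).FiniteProjOverLine :=
  (finiteProjOverLine_chart0 cc).baseChange K

/-- **`CurveHyp` for the base-changed charts over a field `K` isomorphic to `k`.** -/
theorem curveHypK [IsAlgClosed k] : CurveHyp (cc.chartA K) where
  notField0 := not_isField_KB0 cc K hK
  notField1 := not_isField_KB1 cc K hK
  rat0 := fun m hm =>
    haveI := finiteType_KB0 cc K
    haveI := isAlgClosed_K K hK
    quotient_surjective m hm
  rat1 := fun m hm =>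
    haveI := finiteType_KB1 cc K
    haveI := isAlgClosed_K K hK
    quotient_surjective m hm
  finCoh := fun _ hL =>
    ⟨RiemannCover82.Step.finiteDimensional_H0 (cc.chartA K) (finiteProjOverLine_chartA cc K) hL,
      RiemannCover82.Step.finiteDimensional_H1 (cc.chartA K) (finiteProjOverLine_chartA cc K) hL⟩

end Fermat.Agent.Jac.CurveHyp80
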