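/-
Fermat/Agent/Jac/CurveHyp80/PointsK.lean  (helper80)

JAC programme, brick Q3c-CurveHyp, part 5: `k`-points of the curve and rational point pairs of
the base-changed two-chart ring `cc.chartA K`, for a field `K` with `algebraMap k K` bijective.

* `tensorPair K D` : the base change of an ideal pair `D` of `(B0, B1, B01)` to
  `(K ⊗ B0, K ⊗ B1, K ⊗ B01)` (any `k`-algebra `K`);
* `tensorPair_ofChart0/1` : compatibility with closures of chart ideals (`k → K` bijective);
* `pointPairK cc K x := tensorPair K (pointPair cc x)` for a `k`-point `x`;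
* `isRatPointPair_pointPairK`, `exists_point_of_isRatPointPairK`,
  `isRatPointPairK_iff_exists_point`;
* the base point: `P0pairK cc K := ofChart1 (cc.chartA K) (ker (cc.evalA K))` equals
  `pointPairK cc K ε` and is rational.
-/
import Fermat.Agent.Jac.CurveHyp80.FieldK
import Fermat.Agent.Jac.CurveHyp80.Points

set_option autoImplicit false
set_option linter.unusedSectionVars false
set_option linter.style.haveILetI false

open CategoryTheory CategoryTheory.Limits AlgebraicGeometry TopologicalSpace Opposite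
open NeronModelInfra TensorProduct

universe u

noncomputable section

namespace Fermat.Agent.Jac.CurveHyp80

open scoped Fermat.Agent.Jac.BaseChange75
open Fermat.Agent.Jac Fermat.Agent.Jac.TwoCoverGammaSetting Fermat.Agent.Jac.LineOps39
  Fermat.Agent.Jac.AbelJacobi73 Fermat.Agent.Jac.BaseChange75

lemma mem_map_iff_of_bijective {R S : Type*} [CommRing R] [CommRing S] {f : R →+* S}
    (hf : Function.Bijective f) {I : Ideal R} {x : R} : f x ∈ I.map f ↔ x ∈ I :=
  ⟨fun h => by
    obtain ⟨y, hy, hxy⟩ := (Ideal.mem_map_iff_of_surjective f hf.2).1 h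
    rwa [← hf.1 hxy], Ideal.mem_map_of_mem f⟩

section Transport

variable (k : Type u) [Field k] (K : Type u) [CommRing K] [Algebra k K]

/-- `r ↦ 1 ⊗ r`, as a ring homomorphism. -/
def incl (R : Type u) [CommRing R] [Algebra k R] : R →+* K ⊗[k] R :=
  (Algebra.TensorProduct.includeRight : R →ₐ[k] K ⊗[k] R).toRingHom

@[simp] lemma incl_apply (R : Type u) [CommRing R] [Algebra k R] (r : R) :
    incl k K R r = (1 : K) ⊗ₜ[k] r := rfl

variable {k}

variable {B0 B1 B01 : Type u} [CommRing B0] [CommRing B1] [CommRing B01]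
  [Algebra k B0] [Algebra k B1] [Algebra k B01] [Algebra B0 B01] [Algebra B1 B01]
  [IsScalarTower k B0 B01] [IsScalarTower k B1 B01]

lemma square0 : (algebraMap (K ⊗[k] B0) (K ⊗[k] B01)).comp (incl k K B0) =
    (incl k K B01).comp (algebraMap B0 B01) := by
  ext b
  simp

lemma square1 : (algebraMap (K ⊗[k] B1) (K ⊗[k] B01)).comp (incl k K B1) =
    (incl k K B01).comp (algebraMap B1 B01) := by
  ext b
  simp

lemma square0_apply (b : B0) : algebraMap (K ⊗[k] B0) (K ⊗[k] B01) (incl k K B0 b) =
    incl k K B01 (algebraMap B0 B01 b) := by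
  simp

lemma square1_apply (b : B1) : algebraMap (K ⊗[k] B1) (K ⊗[k] B01) (incl k K B1 b) =
    incl k K B01 (algebraMap B1 B01 b) := by
  simp

/-- Base change of an ideal pair. -/
def tensorPair (D : IdealPair B0 B1 B01) :
    IdealPair (K ⊗[k] B0) (K ⊗[k] B1) (K ⊗[k] B01) where
  I0 := D.I0.map (incl k K B0)
  I1 := D.I1.map (incl k K B1)
  compat := by
    rw [Ideal.map_map, Ideal.map_map, square0, square1, ← Ideal.map_map, ← Ideal.map_map,
      D.compat]

@[simp] lemma tensorPair_I0 (D : IdealPair B0 B1 B01) :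
    (tensorPair K D).I0 = D.I0.map (incl k K B0) := rfl
@[simp] lemma tensorPair_I1 (D : IdealPair B0 B1 B01) :
    (tensorPair K D).I1 = D.I1.map (incl k K B1) := rfl

end Transport

section TransportField

variable {k : Type u} [Field k] (K : Type u) [Field K] [Algebra k K]
  (hK : Function.Bijective (algebraMap k K))

include hK in
lemma incl_bijective (R : Type u) [CommRing R] [Algebra k R] :
    Function.Bijective (incl k K R) := by
  have h1 : ∀ r : R, tensorEquiv K hK R (incl k K R r) = r := fun r => by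
    rw [incl_apply, tensorEquiv_tmul, map_one, one_smul]
  refine ⟨Function.LeftInverse.injective h1, fun z => ⟨tensorEquiv K hK R z, ?_⟩⟩
  apply (tensorEquiv K hK R).injective
  rw [h1]

variable {B0 B1 B01 : Type u} [CommRing B0] [CommRing B1] [CommRing B01]
  [Algebra k B0] [Algebra k B1] [Algebra k B01] [Algebra B0 B01] [Algebra B1 B01]
  [IsScalarTower k B0 B01] [IsScalarTower k B1 B01]

include hK in
lemma map_comap_incl (J : Ideal B01) :
    (J.comap (algebraMap B1 B01)).map (incl k K B1) =
      (J.map (incl k K B01)).comap (algebraMap (K ⊗[k] B1) (K ⊗[k] B01)) := by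
  ext z
  obtain ⟨b, rfl⟩ := (incl_bijective K hK B1).2 z
  rw [mem_map_iff_of_bijective (incl_bijective K hK B1), Ideal.mem_comap, Ideal.mem_comap,
    square1_apply, mem_map_iff_of_bijective (incl_bijective K hK B01)]

include hK in
lemma map_comap_incl' (J : Ideal B01) :
    (J.comap (algebraMap B0 B01)).map (incl k K B0) =
      (J.map (incl k K B01)).comap (algebraMap (K ⊗[k] B0) (K ⊗[k] B01)) := by
  ext z
  obtain ⟨b, rfl⟩ := (incl_bijective K hK B0).2 z
  rw [mem_map_iff_of_bijective (incl_bijective K hK B0), Ideal.mem_comap, Ideal.mem_comap,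
    square0_apply, mem_map_iff_of_bijective (incl_bijective K hK B01)]

include hK in
theorem tensorPair_ofChart0 (c0 : TwoChart k B0 B1 B01) (m : Ideal B0) :
    tensorPair K (IdealPair.ofChart0 c0 m) =
      IdealPair.ofChart0 (c0.baseChange K) (m.map (incl k K B0)) := by
  apply idealPair_ext
  · rfl
  · change ((m.map (algebraMap B0 B01)).comap (algebraMap B1 B01)).map (incl k K B1) =
      ((m.map (incl k K B0)).map (algebraMap (K ⊗[k] B0) (K ⊗[k] B01))).comap
        (algebraMap (K ⊗[k] B1) (K ⊗[k] B01))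
    rw [map_comap_incl K hK, Ideal.map_map, Ideal.map_map, square0]

include hK in
theorem tensorPair_ofChart1 (c0 : TwoChart k B0 B1 B01) (m : Ideal B1) :
    tensorPair K (IdealPair.ofChart1 c0 m) =
      IdealPair.ofChart1 (c0.baseChange K) (m.map (incl k K B1)) := by
  apply idealPair_ext
  · change ((m.map (algebraMap B1 B01)).comap (algebraMap B0 B01)).map (incl k K B0) =
      ((m.map (incl k K B1)).map (algebraMap (K ⊗[k] B1) (K ⊗[k] B01))).comap
        (algebraMap (K ⊗[k] B0) (K ⊗[k] B01))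
    rw [map_comap_incl' K hK, Ideal.map_map, Ideal.map_map, square1]
  · rfl

end TransportField

/-! ### `k`-points of the curve and rational point pairs over `K` -/

section Curve

variable {k : Type u} [Field k] {C : Scheme.{u}} {c : C ⟶ Spec (CommRingCat.of k)}
  {ε : SchemeHomOver (𝟙 (Spec (CommRingCat.of k))) c} (cc : CurveCharts c ε)
  (K : Type u) [Field K] [Algebra k K] (hK : Function.Bijective (algebraMap k K))

/-- The ideal pair over `K` of a `k`-point of the curve. -/
def pointPairK (x : SchemeHomOver (𝟙 (Spec (CommRingCat.of k))) c) :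
    IdealPair (K ⊗[k] cc.B0) (K ⊗[k] cc.B1) (K ⊗[k] cc.B01) :=
  tensorPair K (pointPair cc x)

include hK

theorem isPointPair_tensorPair {X : IdealPair cc.B0 cc.B1 cc.B01}
    (hX : IsPointPair cc.chart0 X) : IsPointPair (cc.chartA K) (tensorPair K X) := by
  rcases hX with ⟨m, hm, rfl⟩ | ⟨m, hm, rfl⟩
  · exact Or.inl ⟨m.map (incl k K cc.B0), Ideal.IsMaximal.map_bijective _ (incl_bijective K hK cc.B0) hm,
      tensorPair_ofChart0 K hK cc.chart0 m⟩
  · exact Or.inr ⟨m.map (incl k K cc.B1), Ideal.IsMaximal.map_bijective _ (incl_bijective K hK cc.B1) hm,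
      tensorPair_ofChart1 K hK cc.chart0 m⟩

variable [IsAlgClosed k]

theorem isRatPointPair_pointPairK (x : SchemeHomOver (𝟙 (Spec (CommRingCat.of k))) c) :
    IsRatPointPair (cc.chartA K) (pointPairK cc K x) :=
  haveI := isDedekindDomain_KB0 cc K hK
  haveI := isDedekindDomain_KB1 cc K hK
  haveI := isDomain_KB01 cc K hK
  haveI := isDedekindDomain_B0 cc
  haveI := isDedekindDomain_B1 cc
  haveI := isDomain_B01 cc
  (curveHypK cc K hK).isRatPointPair
    (isPointPair_tensorPair cc K hK (isPointPair_of_isRatPointPair (isRatPointPair_pointPair cc x)))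

theorem exists_point_of_isRatPointPairK
    {X : IdealPair (K ⊗[k] cc.B0) (K ⊗[k] cc.B1) (K ⊗[k] cc.B01)}
    (hX : IsRatPointPair (cc.chartA K) X) :
    ∃ x : SchemeHomOver (𝟙 (Spec (CommRingCat.of k))) c, pointPairK cc K x = X := by
  haveI := isDedekindDomain_B0 cc
  haveI := isDedekindDomain_B1 cc
  haveI := isDomain_B01 cc
  rcases hX with ⟨M, hM, -, rfl⟩ | ⟨M, hM, -, rfl⟩
  · have hsurj := (incl_bijective K hK cc.B0).2
    have hm : (M.comap (incl k K cc.B0)).IsMaximal := Ideal.comap_isMaximal_of_surjective _ hsurj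
    obtain ⟨x, hx⟩ := exists_point_of_isRatPointPair cc
      ((curveHyp cc).isRatPointPair (Or.inl ⟨_, hm, rfl⟩))
    refine ⟨x, ?_⟩
    rw [pointPairK, hx, tensorPair_ofChart0 K hK, Ideal.map_comap_of_surjective _ hsurj]
  · have hsurj := (incl_bijective K hK cc.B1).2
    have hm : (M.comap (incl k K cc.B1)).IsMaximal := Ideal.comap_isMaximal_of_surjective _ hsurj
    obtain ⟨x, hx⟩ := exists_point_of_isRatPointPair cc
      ((curveHyp cc).isRatPointPair (Or.inr ⟨_, hm, rfl⟩))
    refine ⟨x, ?_⟩
    rw [pointPairK, hx, tensorPair_ofChart1 K hK, Ideal.map_comap_of_surjective _ hsurj]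

theorem isRatPointPairK_iff_exists_point
    {X : IdealPair (K ⊗[k] cc.B0) (K ⊗[k] cc.B1) (K ⊗[k] cc.B01)} :
    IsRatPointPair (cc.chartA K) X ↔
      ∃ x : SchemeHomOver (𝟙 (Spec (CommRingCat.of k))) c, pointPairK cc K x = X :=
  ⟨exists_point_of_isRatPointPairK cc K hK, fun ⟨x, hx⟩ => hx ▸ isRatPointPair_pointPairK cc K hK x⟩

omit hK [IsAlgClosed k] in
/-- The base point over `K`, as an ideal pair of `cc.chartA K`. -/
def P0pairK : IdealPair (K ⊗[k] cc.B0) (K ⊗[k] cc.B1) (K ⊗[k] cc.B01) :=
  IdealPair.ofChart1 (cc.chartA K) (RingHom.ker (cc.evalA K))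

omit hK [IsAlgClosed k] in
/-- The base point over `K` is rational (no hypothesis on `K`). -/
theorem isRatPointPair_P0K : IsRatPointPair (cc.chartA K) (P0pairK cc K) :=
  Or.inr ⟨RingHom.ker (cc.evalA K), ker_algHom_isMaximal (cc.evalA K),
    quotient_ker_algHom_surjective (cc.evalA K), rfl⟩

omit [IsAlgClosed k] in
theorem map_ker_P0 : (RingHom.ker cc.P0).map (incl k K cc.B1) = RingHom.ker (cc.evalA K) := by
  have hmax : ((RingHom.ker cc.P0).map (incl k K cc.B1)).IsMaximal :=
    Ideal.IsMaximal.map_bijective _ (incl_bijective K hK cc.B1) (ker_P0_isMaximal cc)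
  refine hmax.eq_of_le (ker_algHom_isMaximal (cc.evalA K)).ne_top ?_
  rw [Ideal.map_le_iff_le_comap]
  intro b hb
  rw [Ideal.mem_comap, RingHom.mem_ker, incl_apply, CurveCharts.evalA_tmul]
  have hb' : cc.P0 b = 0 := hb
  rw [hb', map_zero, mul_zero]

omit [IsAlgClosed k] in
/-- The base point `ε` gives the pair `P0pairK`. -/
theorem pointPairK_base : pointPairK cc K ε = P0pairK cc K := by
  rw [pointPairK, pointPair_base, P0pair, tensorPair_ofChart1 K hK, map_ker_P0 cc K hK]
  rfl

/-- Lists of rational point pairs over `K` come from lists of `k`-points. -/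
theorem exists_points_of_forall_isRatPointPairK
    (l : List (IdealPair (K ⊗[k] cc.B0) (K ⊗[k] cc.B1) (K ⊗[k] cc.B01)))
    (hl : ∀ X ∈ l, IsRatPointPair (cc.chartA K) X) :
    ∃ xs : List (SchemeHomOver (𝟙 (Spec (CommRingCat.of k))) c),
      xs.map (pointPairK cc K) = l := by
  induction l with
  | nil => exact ⟨[], rfl⟩
  | cons X l ih =>
    obtain ⟨xs, hxs⟩ := ih fun Y hY => hl Y (List.mem_cons_of_mem _ hY)
    obtain ⟨x, hx⟩ := exists_point_of_isRatPointPairK cc K hK (hl X List.mem_cons_self)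
    exact ⟨x :: xs, by rw [List.map_cons, hx, hxs]⟩

/-- **Abel-Jacobi is surjective on `k`-points (over `K ≅ k`).**  Every class `ξ` of the Picard
group of `cc.chartA K` with `χ(ξ) = χ(O)` is the product of `g = h¹(O)` classes `[O(P0 - x_i)]`
for `k`-points `x_1, …, x_g` of the curve. -/
theorem exists_kpoints_of_chiQ_eqK [IsDedekindDomain (K ⊗[k] cc.B0)]
    [IsDedekindDomain (K ⊗[k] cc.B1)] [IsDomain (K ⊗[k] cc.B01)] (ξ : PicQ (cc.chartA K))
    (hξ : chiQ (cc.chartA K) ξ = chiQ (cc.chartA K) 1) :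
    ∃ xs : List (SchemeHomOver (𝟙 (Spec (CommRingCat.of k))) c),
      xs.length = Module.finrank K
        (QC2.unit : QC2 K (K ⊗[k] cc.B0) (K ⊗[k] cc.B1) (K ⊗[k] cc.B01)).H1 ∧
      ξ = (xs.map fun x =>
        (idealCls (cc.chartA K) (P0pairK cc K))⁻¹ *
          idealCls (cc.chartA K) (pointPairK cc K x)).prod := by
  obtain ⟨l, hlen, hl, hprod⟩ :=
    (curveHypK cc K hK).exists_points_of_chiQ_eq (isRatPointPair_P0K cc K) ξ hξ
  obtain ⟨xs, rfl⟩ := exists_points_of_forall_isRatPointPairK cc K hK l hl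
  refine ⟨xs, by rw [← hlen, List.length_map], ?_⟩
  rw [hprod, List.map_map]
  rfl

end Curve

end Fermat.Agent.Jac.CurveHyp80
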