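/-
Fermat/Agent/Jac/CurveHyp80/GraphK.lean  (helper80)

JAC programme, brick Q3c-CurveHyp, part 6 (request (L) of helper84): the ideal pair over `K` of a
`k`-point `x` of the curve is the graph pair (helper73's `AbelJacobi73.graphPair0/1`) of the
evaluation at `x`; the base point pair `P0pairK` is the graph pair of `cc.P0`.
-/
import Fermat.Agent.Jac.CurveHyp80.PointsK
import Fermat.Agent.Jac.AbelJacobi73.GraphPair

set_option autoImplicit false
set_option linter.unusedSectionVars false
set_option linter.style.haveILetI false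

open CategoryTheory CategoryTheory.Limits AlgebraicGeometry TopologicalSpace Opposite
open NeronModelInfra TensorProduct

universe u

noncomputable section

namespace Fermat.Agent.Jac.CurveHyp80

open scoped Fermat.Agent.Jac.BaseChange75
open Fermat.Agent.Jac Fermat.Agent.Jac.TwoCoverGammaSetting Fermat.Agent.Jac.LineOps39
  Fermat.Agent.Jac.AbelJacobi73 Fermat.Agent.Jac.BaseChange75

section Generic

variable {k : Type u} [Field k] (K : Type u) [Field K] [Algebra k K]
  (hK : Function.Bijective (algebraMap k K)) {B : Type u} [CommRing B] [Algebra k B]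

omit hK in
lemma graphIdeal_isMaximal (ψ : B →ₐ[k] K) : (graphIdeal K ψ).IsMaximal :=
  RingHom.ker_isMaximal_of_surjective _ (AbelJacobi73.evalAt_surjective K ψ)

include hK in
/-- The extension of the kernel of a `k`-point `φ : B → k` to `K ⊗ B` is the graph ideal of the
`K`-valued point `B → k → K`. -/
theorem map_ker_eq_graphIdeal (φ : B →ₐ[k] k) :
    (RingHom.ker φ).map (incl k K B) = graphIdeal K ((Algebra.ofId k K).comp φ) := by
  have hmax : ((RingHom.ker φ).map (incl k K B)).IsMaximal :=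
    Ideal.IsMaximal.map_bijective _ (incl_bijective K hK B) (ker_algHom_isMaximal φ)
  refine hmax.eq_of_le (graphIdeal_isMaximal K _).ne_top ?_
  rw [Ideal.map_le_iff_le_comap]
  intro b hb
  rw [Ideal.mem_comap, mem_graphIdeal, incl_apply, AbelJacobi73.evalAt_tmul]
  have hb' : φ b = 0 := hb
  rw [AlgHom.comp_apply, hb', map_zero, mul_zero]

omit hK in
/-- The special case `K = k`. -/
theorem map_ker_eq_graphIdeal_self (φ : B →ₐ[k] k) :
    (RingHom.ker φ).map (incl k k B) = graphIdeal k φ := by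
  have h := map_ker_eq_graphIdeal k Function.bijective_id φ
  have h' : (Algebra.ofId k k).comp φ = φ := by
    ext b
    rfl
  rwa [h'] at h

end Generic

section Curve

variable {k : Type u} [Field k] {C : Scheme.{u}} {c : C ⟶ Spec (CommRingCat.of k)}
  {ε : SchemeHomOver (𝟙 (Spec (CommRingCat.of k))) c} (cc : CurveCharts c ε)
  (K : Type u) [Field K] [Algebra k K] (hK : Function.Bijective (algebraMap k K))
  (x : SchemeHomOver (𝟙 (Spec (CommRingCat.of k))) c)

include hK in
/-- A `k`-point of the first chart: its ideal pair over `K` is the graph pair of the evaluation. -/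
theorem pointPairK_eq_graphPair0 (hx : x.1 ⁻¹ᵁ cc.U0 = ⊤) :
    pointPairK cc K x =
      graphPair0 cc.chart0 K ((Algebra.ofId k K).comp (evalAlg0 cc x hx)) := by
  rw [pointPairK, pointPair_eq_ofChart0 cc x hx, tensorPair_ofChart0 K hK, I0_eq_ker cc x hx,
    map_ker_eq_graphIdeal K hK]
  rfl

include hK in
/-- A `k`-point of the second chart. -/
theorem pointPairK_eq_graphPair1 (hx : x.1 ⁻¹ᵁ cc.U1 = ⊤) :
    pointPairK cc K x =
      graphPair1 cc.chart0 K ((Algebra.ofId k K).comp (evalAlg1 cc x hx)) := by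
  rw [pointPairK, pointPair_eq_ofChart1 cc x hx, tensorPair_ofChart1 K hK, I1_eq_ker cc x hx,
    map_ker_eq_graphIdeal K hK]
  rfl

/-- `K = k`, first chart. -/
theorem pointPairK_self_eq_graphPair0 (hx : x.1 ⁻¹ᵁ cc.U0 = ⊤) :
    pointPairK cc k x = graphPair0 cc.chart0 k (evalAlg0 cc x hx) := by
  rw [pointPairK, pointPair_eq_ofChart0 cc x hx, tensorPair_ofChart0 k Function.bijective_id,
    I0_eq_ker cc x hx, map_ker_eq_graphIdeal_self]
  rfl

/-- `K = k`, second chart. -/
theorem pointPairK_self_eq_graphPair1 (hx : x.1 ⁻¹ᵁ cc.U1 = ⊤) :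
    pointPairK cc k x = graphPair1 cc.chart0 k (evalAlg1 cc x hx) := by
  rw [pointPairK, pointPair_eq_ofChart1 cc x hx, tensorPair_ofChart1 k Function.bijective_id,
    I1_eq_ker cc x hx, map_ker_eq_graphIdeal_self]
  rfl

/-- The base point pair over `K` is the graph pair of the base point. -/
theorem P0pairK_eq_graphPair1 :
    P0pairK cc K = graphPair1 cc.chart0 K ((Algebra.ofId k K).comp cc.P0) := rfl

/-- `K = k`. -/
theorem P0pairK_self_eq_graphPair1 : P0pairK cc k = graphPair1 cc.chart0 k cc.P0 := by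
  rw [P0pairK_eq_graphPair1]
  have h' : (Algebra.ofId k k).comp cc.P0 = cc.P0 := by
    ext b
    rfl
  rw [h']

/-- Every rational point pair of `cc.chartA k` is the graph pair of the evaluation at a `k`-point
of one of the two charts. -/
theorem exists_graphPair_of_isRatPointPair [IsAlgClosed k]
    {X : IdealPair (k ⊗[k] cc.B0) (k ⊗[k] cc.B1) (k ⊗[k] cc.B01)}
    (hX : IsRatPointPair (cc.chartA k) X) :
    ∃ x : SchemeHomOver (𝟙 (Spec (CommRingCat.of k))) c,
      (∃ hx : x.1 ⁻¹ᵁ cc.U0 = ⊤, X = graphPair0 cc.chart0 k (evalAlg0 cc x hx)) ∨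
      (∃ hx : x.1 ⁻¹ᵁ cc.U1 = ⊤, X = graphPair1 cc.chart0 k (evalAlg1 cc x hx)) := by
  obtain ⟨x, rfl⟩ := exists_point_of_isRatPointPairK cc k Function.bijective_id hX
  refine ⟨x, ?_⟩
  rcases mem_U0_or_mem_U1 cc x with h0 | h1
  · exact Or.inl ⟨h0, pointPairK_self_eq_graphPair0 cc x h0⟩
  · exact Or.inr ⟨h1, pointPairK_self_eq_graphPair1 cc x h1⟩

/-- Stronger form: the `k`-point `x` works for EVERY chart containing it. -/
theorem exists_point_forall_graphPair [IsAlgClosed k]
    {X : IdealPair (k ⊗[k] cc.B0) (k ⊗[k] cc.B1) (k ⊗[k] cc.B01)}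
    (hX : IsRatPointPair (cc.chartA k) X) :
    ∃ x : SchemeHomOver (𝟙 (Spec (CommRingCat.of k))) c,
      (∀ hx : x.1 ⁻¹ᵁ cc.U0 = ⊤, X = graphPair0 cc.chart0 k (evalAlg0 cc x hx)) ∧
      (∀ hx : x.1 ⁻¹ᵁ cc.U1 = ⊤, X = graphPair1 cc.chart0 k (evalAlg1 cc x hx)) := by
  obtain ⟨x, rfl⟩ := exists_point_of_isRatPointPairK cc k Function.bijective_id hX
  exact ⟨x, fun h0 => pointPairK_self_eq_graphPair0 cc x h0,
    fun h1 => pointPairK_self_eq_graphPair1 cc x h1⟩

end Curve

end Fermat.Agent.Jac.CurveHyp80
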