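/-
Fermat/Agent/Jac/CurveHyp80/Corollary.lean  (helper80)

JAC programme, brick Q3c-CurveHyp, part 3: the algebraic Abel-Jacobi surjectivity of helper73
(`AbelJacobi73.CurveHyp.exists_points_of_chiQ_eq`) for the charts of a curve over an algebraically
closed field, with the rational point pairs replaced by honest `k`-points of the curve.
-/
import Fermat.Agent.Jac.CurveHyp80.Points

set_option autoImplicit false
set_option linter.unusedSectionVars false
set_option linter.style.haveILetI false

open CategoryTheory CategoryTheory.Limits AlgebraicGeometry TopologicalSpace Opposite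
open NeronModelInfra Module

universe u

noncomputable section

namespace Fermat.Agent.Jac.CurveHyp80

open Fermat.Agent.Jac Fermat.Agent.Jac.TwoCoverGammaSetting Fermat.Agent.Jac.LineOps39
  Fermat.Agent.Jac.AbelJacobi73

variable {k : Type u} [Field k] [IsAlgClosed k] {C : Scheme.{u}}
  {c : C ⟶ Spec (CommRingCat.of k)}
  {ε : SchemeHomOver (𝟙 (Spec (CommRingCat.of k))) c} (cc : CurveCharts c ε)

/-- Lists of rational point pairs come from lists of `k`-points. -/
theorem exists_points_of_forall_isRatPointPair (l : List (IdealPair cc.B0 cc.B1 cc.B01))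
    (hl : ∀ X ∈ l, IsRatPointPair cc.chart0 X) :
    ∃ xs : List (SchemeHomOver (𝟙 (Spec (CommRingCat.of k))) c), xs.map (pointPair cc) = l := by
  induction l with
  | nil => exact ⟨[], rfl⟩
  | cons X l ih =>
    obtain ⟨xs, hxs⟩ := ih fun Y hY => hl Y (List.mem_cons_of_mem _ hY)
    obtain ⟨x, hx⟩ := exists_point_of_isRatPointPair cc (hl X List.mem_cons_self)
    exact ⟨x :: xs, by rw [List.map_cons, hx, hxs]⟩

/-- **Abel-Jacobi is surjective on `k`-points.**  Every class `ξ` of the Picard group of the
two-chart ring of the curve with `χ(ξ) = χ(O)` is the product of `g = h¹(O)` classes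
`[O(P0 - x_i)]` for `k`-points `x_1, …, x_g` of the curve (`P0 = ε` the base point). -/
theorem exists_kpoints_of_chiQ_eq [IsDedekindDomain cc.B0] [IsDedekindDomain cc.B1]
    [IsDomain cc.B01] (ξ : PicQ cc.chart0)
    (hξ : chiQ cc.chart0 ξ = chiQ cc.chart0 1) :
    ∃ xs : List (SchemeHomOver (𝟙 (Spec (CommRingCat.of k))) c),
      xs.length = finrank k (QC2.unit : QC2 k cc.B0 cc.B1 cc.B01).H1 ∧
      ξ = (xs.map fun x =>
        (idealCls cc.chart0 (pointPair cc ε))⁻¹ * idealCls cc.chart0 (pointPair cc x)).prod := by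
  obtain ⟨l, hlen, hl, hprod⟩ :=
    (curveHyp cc).exists_points_of_chiQ_eq (isRatPointPair_P0 cc) ξ hξ
  obtain ⟨xs, rfl⟩ := exists_points_of_forall_isRatPointPair cc l hl
  refine ⟨xs, by rw [← hlen, List.length_map], ?_⟩
  rw [hprod, List.map_map, pointPair_base]
  rfl

end Fermat.Agent.Jac.CurveHyp80
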